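import Mathlib.Analysis.SpecialFunctions.Complex.CircleAddChar
import Mathlib.Analysis.RCLike.Basic
import Mathlib.Algebra.Order.Chebyshev

/-!
# Exponential sums modulo `q`

`expSum q s v α = ∑_{x ∈ s} e (α v x / q)`: powers, squared absolute values and orthogonality.
-/

set_option autoImplicit false

noncomputable section

namespace FA.WaringHilbert

open Finset
open scoped ComplexConjugate

variable {ι κ : Type*} (q : ℕ) [NeZero q]

/-- An exponential sum. -/
def expSum (s : Finset ι) (v : ι → ℤ) (α : ZMod q) : ℂ :=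
  ∑ x ∈ s, ZMod.stdAddChar (α * (v x : ZMod q))

theorem stdAddChar_sum (s : Finset ι) (f : ι → ZMod q) :
    ZMod.stdAddChar (∑ i ∈ s, f i) = ∏ i ∈ s, ZMod.stdAddChar (f i) := by
  classical
  induction s using Finset.induction with
  | empty => simp
  | insert a s ha ih => rw [sum_insert ha, prod_insert ha, AddChar.map_add_eq_mul, ih]

theorem expSum_pow (s : Finset ι) (v : ι → ℤ) (n : ℕ) (α : ZMod q) :
    expSum q s v α ^ n =
      expSum q (Fintype.piFinset fun _ : Fin n => s) (fun x => ∑ i, v (x i)) α := by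
  unfold expSum
  rw [sum_pow']
  refine sum_congr rfl fun x _ => ?_
  push_cast
  rw [mul_sum, stdAddChar_sum]

theorem expSum_mul_conj (s : Finset ι) (v : ι → ℤ) (α : ZMod q) :
    ((‖expSum q s v α‖ ^ 2 : ℝ) : ℂ) =
      expSum q (s ×ˢ s) (fun p => v p.1 - v p.2) α := by
  push_cast
  rw [← Complex.mul_conj']
  unfold expSum
  rw [map_sum, sum_mul_sum, ← sum_product']
  refine sum_congr rfl fun p _ => ?_
  rw [← AddChar.map_neg_eq_conj, ← AddChar.map_add_eq_mul]
  push_cast
  ring_nf

theorem expSum_sigma (H : Finset κ) (Y : κ → Finset ι) (v : (Σ _ : κ, ι) → ℤ) (α : ZMod q) :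
    expSum q (H.sigma Y) v α = ∑ h ∈ H, expSum q (Y h) (fun y => v ⟨h, y⟩) α :=
  sum_sigma _ _ _

/-- Orthogonality. -/
theorem sum_expSum (s : Finset ι) (v : ι → ℤ) :
    ∑ α : ZMod q, expSum q s v α = (q : ℂ) * #(s.filter fun x => (v x : ZMod q) = 0) := by
  unfold expSum
  rw [sum_comm]
  simp_rw [AddChar.sum_mulShift _ (ZMod.isPrimitive_stdAddChar q), ZMod.card, Nat.cast_ite,
    Nat.cast_zero]
  rw [← sum_filter, sum_const, nsmul_eq_mul, mul_comm]

theorem card_filter_eq_le (s : Finset ι) (v : ι → ℤ) (m : ℤ) :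
    (q : ℝ) * #(s.filter fun x => v x = m) ≤
      ‖∑ α : ZMod q, ZMod.stdAddChar (-(α * (m : ZMod q))) * expSum q s v α‖ := by
  have h : ∑ α : ZMod q, ZMod.stdAddChar (-(α * (m : ZMod q))) * expSum q s v α =
      (q : ℂ) * #(s.filter fun x => ((v x - m : ℤ) : ZMod q) = 0) := by
    rw [← sum_expSum]
    refine sum_congr rfl fun α _ => ?_
    unfold expSum
    rw [mul_sum]
    refine sum_congr rfl fun x _ => ?_
    rw [← AddChar.map_add_eq_mul]
    push_cast
    ring_nf
  rw [h, norm_mul, Complex.norm_natCast, Complex.norm_natCast]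
  refine mul_le_mul_of_nonneg_left (Nat.cast_le.2 (card_le_card fun x hx => ?_))
    (Nat.cast_nonneg _)
  simp only [mem_filter] at hx ⊢
  exact ⟨hx.1, by rw [hx.2, sub_self, Int.cast_zero]⟩

theorem norm_stdAddChar (x : ZMod q) : ‖ZMod.stdAddChar x‖ = 1 := by
  rw [ZMod.stdAddChar_apply, Circle.norm_coe]

theorem norm_expSum_le (s : Finset ι) (v : ι → ℤ) (α : ZMod q) : ‖expSum q s v α‖ ≤ #s := by
  refine (norm_sum_le _ _).trans ?_
  simp

end FA.WaringHilbert
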