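import Fermat.Agent.GoldbachSchnirelmann.Main
import Mathlib.Data.Fintype.BigOperators

/-!
# The linear equation `h₁ m₁ + h₂ m₂ + h₃ m₃ + h₄ m₄ = 0`

With `0 < |hᵢ| ≤ A ≤ B` and `|mᵢ| ≤ B` it has at most `C (A B) ^ 3` solutions.
-/

set_option autoImplicit false

noncomputable section

namespace FA.WaringHilbert

open Finset

/-- The integers of absolute value at most `A`, without `0`. -/
def punctured (A : ℕ) : Finset ℤ := (Icc (-(A : ℤ)) A).erase 0

/-- The pairs `(h, m)`. -/
def box (A B : ℕ) : Finset (ℤ × ℤ) := punctured A ×ˢ Icc (-(B : ℤ)) B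

/-- The representations `v = h m + h' m'`. -/
def reps (A B : ℕ) (v : ℤ) : Finset ((ℤ × ℤ) × ℤ × ℤ) :=
  (box A B ×ˢ box A B).filter fun p => p.1.1 * p.1.2 + p.2.1 * p.2.2 = v

/-- The divisor sum controlling `reps`. -/
def divWeight (A n : ℕ) : ℝ := ∑ g ∈ (Icc 1 A).filter (· ∣ n), (1 : ℝ) / g

theorem mem_punctured {A : ℕ} {h : ℤ} :
    h ∈ punctured A ↔ h ≠ 0 ∧ h.natAbs ≤ A := by
  rw [punctured, mem_erase, mem_Icc]
  omega

/-- At most `3 |I| / t` multiples of `t` in a residue class. -/
theorem card_congruent_le (t L : ℕ) (S : Finset ℤ)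
    (hS : ∀ x ∈ S, x ∈ Icc (-(L : ℤ)) L) (hcong : ∀ x ∈ S, ∀ y ∈ S, (t : ℤ) ∣ x - y) :
    (#S : ℝ) ≤ 2 * L / t + 1 := by
  have h : #S ≤ 2 * L / t + 1 := by
    refine (card_le_card_of_injOn (fun x : ℤ => (x + (L : ℤ)).toNat / t)
      (t := range (2 * L / t + 1))
      (fun x hx => ?_) fun x hx y hy hxy => ?_).trans (card_range _).le
    · have := hS x hx
      rw [mem_Icc] at this
      exact mem_coe.2 (mem_range.2 (Nat.lt_succ_of_le (Nat.div_le_div_right (by omega))))
    · have hx' := hS x hx
      have hy' := hS y hy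
      rw [mem_Icc] at hx' hy'
      obtain ⟨a, ha⟩ : ∃ a : ℕ, (a : ℤ) = x + L := ⟨(x + L).toNat, by omega⟩
      obtain ⟨b, hb⟩ : ∃ b : ℕ, (b : ℤ) = y + L := ⟨(y + L).toNat, by omega⟩
      simp only [← ha, ← hb, Int.toNat_natCast] at hxy
      have hmod : a ≡ b [MOD t] := by
        rw [Nat.ModEq.comm, Nat.modEq_iff_dvd]
        rw [ha, hb, add_sub_add_right_eq_sub]
        exact hcong x hx y hy
      have : a = b := by rw [← Nat.div_add_mod a t, ← Nat.div_add_mod b t, hxy, hmod]
      omega
  calc (#S : ℝ) ≤ ((2 * L / t + 1 : ℕ) : ℝ) := Nat.cast_le.2 h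
    _ ≤ _ := by
        push_cast
        gcongr
        exact_mod_cast (Nat.cast_div_le (α := ℝ) (m := 2 * L) (n := t))

theorem card_coeff_le {A B : ℕ} (hAB : A ≤ B) {h h' v : ℤ} (hh : h ≠ 0) (hhA : h.natAbs ≤ A)
    (g : ℕ) (hg : g = Int.gcd h h') :
    (#((Icc (-(B : ℤ)) B ×ˢ Icc (-(B : ℤ)) B).filter fun m => h * m.1 + h' * m.2 = v) : ℝ) ≤
      3 * B * g / h.natAbs := by
  obtain ⟨S, hS⟩ : ∃ S, S = (Icc (-(B : ℤ)) B ×ˢ Icc (-(B : ℤ)) B).filter
      fun m => h * m.1 + h' * m.2 = v := ⟨_, rfl⟩
  rw [← hS]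
  have hg0 : 0 < g := hg ▸ Int.gcd_pos_of_ne_zero_left h' hh
  obtain ⟨a, ha⟩ : (g : ℤ) ∣ h := hg ▸ Int.gcd_dvd_left h h'
  obtain ⟨b, hb⟩ : (g : ℤ) ∣ h' := hg ▸ Int.gcd_dvd_right h h'
  have hcop : IsCoprime a b := by
    rw [Int.isCoprime_iff_gcd_eq_one]
    have e := hg
    rw [ha, hb, Int.gcd_mul_left, Int.natAbs_natCast] at e
    exact Nat.eq_of_mul_eq_mul_left hg0 (e.symm.trans (mul_one g).symm)
  have habs : h.natAbs = g * a.natAbs := by rw [ha, Int.natAbs_mul, Int.natAbs_natCast]
  have ha0 : 0 < a.natAbs := by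
    rcases Nat.eq_zero_or_pos a.natAbs with h0 | h0
    · rw [h0, mul_zero] at habs
      exact absurd (Int.natAbs_eq_zero.1 habs) hh
    · exact h0
  have hcard : #S = #(S.image Prod.snd) := by
    refine (card_image_of_injOn fun x hx y hy hxy => ?_).symm
    simp only [hS, mem_coe, mem_filter] at hx hy
    refine Prod.ext (mul_left_cancel₀ hh ?_) hxy
    have e := hx.2.trans hy.2.symm
    rw [hxy] at e
    linarith
  have hb1 := card_congruent_le a.natAbs B (S.image Prod.snd) (fun x hx => ?_) fun x hx y hy => ?_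
  · rw [hcard]
    refine hb1.trans ?_
    have e : (h.natAbs : ℝ) = (g : ℝ) * (a.natAbs : ℝ) := by rw [habs]; push_cast; rfl
    have h1 : (g : ℝ) * (a.natAbs : ℝ) ≤ B := e ▸ Nat.cast_le.2 (hhA.trans hAB)
    have hgr : (0 : ℝ) < g := Nat.cast_pos.2 hg0
    have har : (0 : ℝ) < (a.natAbs : ℝ) := Nat.cast_pos.2 ha0
    rw [e, mul_comm (g : ℝ), mul_div_mul_right _ _ hgr.ne']
    have : 1 ≤ (B : ℝ) / (a.natAbs : ℝ) := by
      rw [one_le_div har]
      exact le_trans (le_mul_of_one_le_left har.le (Nat.one_le_cast.2 hg0)) h1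
    calc 2 * (B : ℝ) / (a.natAbs : ℝ) + 1 ≤ 2 * (B : ℝ) / (a.natAbs : ℝ) + B / (a.natAbs : ℝ) :=
          by linarith
      _ = _ := by ring
  · obtain ⟨z, hz, rfl⟩ := mem_image.1 hx
    rw [hS, mem_filter, mem_product] at hz
    exact hz.1.2
  · obtain ⟨z, hz, rfl⟩ := mem_image.1 hx
    obtain ⟨w, hw, rfl⟩ := mem_image.1 hy
    rw [hS, mem_filter] at hz hw
    rw [Int.natCast_natAbs, abs_dvd]
    refine hcop.dvd_of_dvd_mul_left ?_
    refine ⟨w.1 - z.1, ?_⟩
    have e := hz.2.trans hw.2.symm
    rw [ha, hb] at e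
    refine mul_left_cancel₀ (show (g : ℤ) ≠ 0 by exact_mod_cast hg0.ne') ?_
    linear_combination e

/-- **The bound on representations.** -/
theorem card_reps_le {A B : ℕ} (hAB : A ≤ B) (v : ℤ) :
    (#(reps A B v) : ℝ) ≤ 36 * A * B * divWeight A v.natAbs := by
  obtain ⟨R, hR⟩ : ∃ R, R = (reps A B v).filter fun p => p.2.1.natAbs ≤ p.1.1.natAbs := ⟨_, rfl⟩
  have hhalf : #(reps A B v) ≤ 2 * #R := by
    have h1 := card_filter_add_card_filter_not (s := reps A B v)
      fun p => p.2.1.natAbs ≤ p.1.1.natAbs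
    have h2 : #((reps A B v).filter fun p => ¬ p.2.1.natAbs ≤ p.1.1.natAbs) ≤ #R := by
      refine card_le_card_of_injOn Prod.swap (fun p hp => ?_) Prod.swap_injective.injOn
      simp only [mem_coe, mem_filter, reps, mem_product] at hp
      simp only [hR, mem_coe, mem_filter, reps, mem_product, Prod.fst_swap, Prod.snd_swap]
      exact ⟨⟨⟨hp.1.1.2, hp.1.1.1⟩, by linarith [hp.1.2]⟩, by omega⟩
    rw [hR]
    rw [hR] at h2
    omega
  obtain ⟨H, hH⟩ : ∃ H, H = (punctured A ×ˢ punctured A).filter
      fun q => q.2.natAbs ≤ q.1.natAbs := ⟨_, rfl⟩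
  have hmain : (#R : ℝ) ≤ 18 * A * B * divWeight A v.natAbs := by
    rw [card_eq_sum_card_fiberwise (f := fun p => (p.1.1, p.2.1)) (t := H) fun p hp => ?_]
    · push_cast
      refine le_trans (le_of_eq (sum_filter_of_ne
        (p := fun q : ℤ × ℤ => Int.gcd q.1 q.2 ∣ v.natAbs) fun q _ hne => ?_).symm) ?_
      · obtain ⟨p, hp⟩ :=
          card_pos.1 (Nat.pos_of_ne_zero (fun h0 => hne (by rw [h0, Nat.cast_zero])))
        simp only [hR, reps, mem_filter] at hp
        obtain ⟨⟨⟨-, he⟩, -⟩, rfl⟩ := hp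
        rw [← he, ← Int.natCast_dvd]
        exact dvd_add ((Int.gcd_dvd_left _ _).mul_right _) ((Int.gcd_dvd_right _ _).mul_right _)
      rw [← sum_fiberwise_of_maps_to (g := fun q : ℤ × ℤ => Int.gcd q.1 q.2)
        (t := (Icc 1 A).filter (· ∣ v.natAbs)) fun q hq => ?_]
      · rw [divWeight, mul_sum]
        refine sum_le_sum fun g hg => ?_
        rw [mem_filter, mem_Icc] at hg
        have hg0 : 0 < g := hg.1.1
        obtain ⟨M, hM⟩ : ∃ M, M = (punctured A).filter fun x : ℤ => (g : ℤ) ∣ x := ⟨_, rfl⟩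
        have hMcard : (#M : ℝ) ≤ 2 * A / g := by
          have hc := card_congruent_le g A (insert 0 M) (fun x hx => ?_) fun x hx y hy => ?_
          · rw [card_insert_of_notMem (by simp [hM, mem_punctured]), Nat.cast_add_one] at hc
            linarith
          · simp only [mem_insert, hM, mem_filter, mem_punctured] at hx
            rw [mem_Icc]
            omega
          · simp only [mem_insert, hM, mem_filter] at hx hy
            refine dvd_sub ?_ ?_
            · rcases hx with rfl | hx
              · exact dvd_zero _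
              · exact hx.2
            · rcases hy with rfl | hy
              · exact dvd_zero _
              · exact hy.2
        calc _ ≤ ∑ h ∈ M, ∑ h' ∈ (punctured A).filter (fun x : ℤ => (g : ℤ) ∣ x ∧
              x.natAbs ≤ h.natAbs), (3 * (B : ℝ) * g / h.natAbs) := by
              rw [sum_sigma']
              refine le_trans (sum_le_sum (g := fun q => 3 * (B : ℝ) * g / q.1.natAbs)
                fun q hq => ?_) ?_
              · simp only [mem_filter, hH, mem_product, mem_punctured] at hq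
                have hc := card_coeff_le (v := v) hAB hq.1.1.1.1.1 hq.1.1.1.1.2 g hq.2.symm
                refine le_trans (Nat.cast_le.2 ?_) hc
                refine card_le_card_of_injOn (fun p => (p.1.2, p.2.2)) (fun p hp => ?_)
                  fun p hp r hr hpr => ?_
                · simp only [mem_coe, hR, reps, box, mem_filter, mem_product] at hp
                  simp only [mem_coe, mem_filter, mem_product]
                  obtain ⟨⟨⟨⟨⟨-, h1⟩, -, h2⟩, he⟩, -⟩, rfl⟩ := hp
                  exact ⟨⟨h1, h2⟩, he⟩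
                · simp only [mem_coe, mem_filter] at hp hr
                  simp only [Prod.mk.injEq] at hpr
                  have e := hp.2.trans hr.2.symm
                  simp only [Prod.mk.injEq] at e
                  exact Prod.ext (Prod.ext e.1 hpr.1) (Prod.ext e.2 hpr.2)
              · refine le_trans (le_of_eq ?_) (sum_le_sum_of_subset_of_nonneg
                  (s := ((H.filter fun q => Int.gcd q.1 q.2 ∣ v.natAbs).filter
                    fun q => Int.gcd q.1 q.2 = g).map
                    ⟨fun q => (⟨q.1, q.2⟩ : Σ _ : ℤ, ℤ), fun a b h => by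
                      simpa [Prod.ext_iff] using h⟩) ?_ fun q _ _ => by positivity)
                · rw [sum_map]
                  rfl
                · intro q hq
                  obtain ⟨p, hp, rfl⟩ := Finset.mem_map.1 hq
                  simp only [mem_filter, hH, mem_product] at hp
                  simp only [mem_sigma, hM, mem_filter]
                  exact ⟨⟨hp.1.1.1.1, hp.2 ▸ Int.gcd_dvd_left _ _⟩,
                    hp.1.1.1.2, hp.2 ▸ Int.gcd_dvd_right _ _, hp.1.1.2⟩
          _ ≤ ∑ h ∈ M, 9 * (B : ℝ) := by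
              refine sum_le_sum fun h hh => ?_
              rw [hM, mem_filter, mem_punctured] at hh
              rw [sum_const, nsmul_eq_mul]
              obtain ⟨N, hN⟩ : ∃ N, N = (punctured A).filter fun x : ℤ => (g : ℤ) ∣ x ∧
                  x.natAbs ≤ h.natAbs := ⟨_, rfl⟩
              rw [← hN]
              have hn : (0 : ℝ) < h.natAbs := by
                exact_mod_cast Nat.pos_of_ne_zero (Int.natAbs_ne_zero.2 hh.1.1)
              have hc := card_congruent_le g h.natAbs N (fun x hx => by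
                simp only [hN, mem_filter] at hx
                rw [mem_Icc]
                omega) fun x hx y hy => by
                simp only [hN, mem_filter] at hx hy
                exact dvd_sub hx.2.1 hy.2.1
              have hgh : (g : ℝ) ≤ h.natAbs := Nat.cast_le.2 (Nat.le_of_dvd
                (Nat.pos_of_ne_zero (Int.natAbs_ne_zero.2 hh.1.1)) (Int.natCast_dvd.1 hh.2))
              have hgr : (0 : ℝ) < g := Nat.cast_pos.2 hg0
              have hc' : (#N : ℝ) ≤ 3 * h.natAbs / g := by
                refine hc.trans ?_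
                rw [le_div_iff₀ hgr, add_mul, div_mul_cancel₀ _ hgr.ne']
                linarith
              calc (#N : ℝ) * (3 * B * g / h.natAbs)
                  ≤ 3 * h.natAbs / g * (3 * B * g / h.natAbs) :=
                    mul_le_mul_of_nonneg_right hc' (by positivity)
                _ = _ := by field_simp; ring
          _ ≤ 18 * A * B * (1 / g) := by
              rw [sum_const, nsmul_eq_mul]
              calc (#M : ℝ) * (9 * B) ≤ 2 * A / g * (9 * B) :=
                    mul_le_mul_of_nonneg_right hMcard (by positivity)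
                _ = _ := by ring
      · simp only [hH, mem_filter, mem_product, mem_punctured] at hq
        simp only [mem_filter, mem_Icc]
        refine ⟨⟨Int.gcd_pos_of_ne_zero_left _ hq.1.1.1.1, ?_⟩, hq.2⟩
        exact (Nat.le_of_dvd (Nat.pos_of_ne_zero (Int.natAbs_ne_zero.2 hq.1.1.1.1))
          (Nat.gcd_dvd_left _ _)).trans hq.1.1.1.2
    · simp only [hR, hH, reps, box, mem_coe, mem_filter, mem_product] at hp ⊢
      exact ⟨⟨hp.1.1.1.1, hp.1.1.2.1⟩, hp.2⟩
  calc (#(reps A B v) : ℝ) ≤ ((2 * #R : ℕ) : ℝ) := Nat.cast_le.2 hhalf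
    _ ≤ _ := by
        push_cast
        linarith

/-- The mean square of the weights. -/
theorem sum_divWeight_sq_le {A B : ℕ} (hAB : A ≤ B) :
    ∑ n ∈ range (2 * A * B + 1), divWeight A n ^ 2 ≤
      (1 + 2 * GoldbachSchnirelmann.meanConst) * (A * B) := by
  rw [range_eq_Ico, sum_eq_sum_Ico_succ_bot (by omega)]
  have h0 : divWeight A 0 ≤ A := by
    refine (sum_le_sum_of_subset_of_nonneg (filter_subset _ _) fun g _ _ => by positivity).trans
      ((sum_le_sum (g := fun _ => (1 : ℝ)) fun g hg => ?_).trans (by simp))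
    rw [mem_Icc] at hg
    rw [div_le_one (by exact_mod_cast hg.1)]
    exact_mod_cast hg.1
  have h0' : divWeight A 0 ^ 2 ≤ A * B := by
    refine (pow_le_pow_left₀ (sum_nonneg fun g _ => by positivity) h0 2).trans ?_
    rw [sq]
    gcongr
  have h1 : ∑ n ∈ Ico (0 + 1) (2 * A * B + 1), divWeight A n ^ 2 ≤
      GoldbachSchnirelmann.meanConst * (2 * A * B : ℕ) := by
    refine le_trans (sum_le_sum (g := fun n => GoldbachSchnirelmann.divSum n ^ 2) fun n hn => ?_)
      (le_trans (le_of_eq ?_) (GoldbachSchnirelmann.sum_divSum_sq_le (2 * A * B)))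
    · refine pow_le_pow_left₀ (sum_nonneg fun g _ => by positivity) ?_ 2
      refine sum_le_sum_of_subset_of_nonneg (fun g hg => ?_) fun g _ _ => by positivity
      rw [mem_Ico] at hn
      exact Nat.mem_divisors.2 ⟨(mem_filter.1 hg).2, by omega⟩
    · refine sum_congr ?_ fun _ _ => rfl
      ext n
      simp only [mem_Ico, mem_Icc]
      omega
  push_cast at h1
  linarith

/-- The constant of `card_linear_le`. -/
def linearConst : ℝ := 2 * 36 ^ 2 * (1 + 2 * GoldbachSchnirelmann.meanConst)

theorem linearConst_nonneg : 0 ≤ linearConst := by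
  have : 0 ≤ GoldbachSchnirelmann.meanConst := sq_nonneg _
  unfold linearConst
  positivity

/-- **The linear equation.** -/
theorem card_linear_le {A B : ℕ} (hAB : A ≤ B) :
    (#((Fintype.piFinset fun _ : Fin 4 => box A B).filter
      fun p => ∑ i, (p i).1 * (p i).2 = 0) : ℝ) ≤ linearConst * ((A : ℝ) * B) ^ 3 := by
  obtain ⟨V, hV⟩ : ∃ V : Finset ℤ, V = Icc (-((2 * A * B : ℕ) : ℤ)) (2 * A * B : ℕ) := ⟨_, rfl⟩
  have hsq : (#((Fintype.piFinset fun _ : Fin 4 => box A B).filter
      fun p => ∑ i, (p i).1 * (p i).2 = 0) : ℝ) ≤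
      ∑ v ∈ V, (#(reps A B v) : ℝ) * #(reps A B (-v)) := by
    rw [← Finset.sum_congr rfl fun v _ => Nat.cast_mul #(reps A B v) #(reps A B (-v)),
      ← Nat.cast_sum, Nat.cast_le]
    simp_rw [← card_product]
    rw [← card_sigma]
    refine card_le_card_of_injOn
      (fun p => ⟨(p 0).1 * (p 0).2 + (p 1).1 * (p 1).2, ((p 0, p 1), (p 2, p 3))⟩) ?_ ?_
    · intro p hp
      simp only [mem_coe, mem_filter, Fintype.mem_piFinset, Fin.sum_univ_four] at hp
      simp only [mem_coe, mem_sigma, reps, mem_product, mem_filter, hV, mem_Icc]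
      refine ⟨?_, ⟨⟨hp.1 0, hp.1 1⟩, trivial⟩, ⟨hp.1 2, hp.1 3⟩, by linarith [hp.2]⟩
      have key : ∀ q ∈ box A B, |q.1 * q.2| ≤ (A : ℤ) * B := by
        intro q hq
        simp only [box, mem_product, mem_punctured, mem_Icc] at hq
        rw [abs_mul]
        refine mul_le_mul ?_ (abs_le.2 hq.2) (abs_nonneg _) (Nat.cast_nonneg _)
        rw [Int.abs_eq_natAbs]
        exact_mod_cast hq.1.2
      have k0 := abs_le.1 (key _ (hp.1 0))
      have k1 := abs_le.1 (key _ (hp.1 1))
      push_cast
      constructor <;> linarith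
    · intro p _ r _ h
      simp only [Sigma.mk.injEq, heq_eq_eq, Prod.mk.injEq] at h
      obtain ⟨-, ⟨h0, h1⟩, h2, h3⟩ := h
      funext i
      fin_cases i <;> assumption
  refine hsq.trans ?_
  calc ∑ v ∈ V, (#(reps A B v) : ℝ) * #(reps A B (-v))
      ≤ ∑ v ∈ V, (36 * A * B) ^ 2 * divWeight A v.natAbs ^ 2 := by
        refine sum_le_sum fun v _ => ?_
        rw [← mul_pow, sq]
        have h := card_reps_le hAB (-v)
        rw [Int.natAbs_neg] at h
        exact mul_le_mul (card_reps_le hAB v) h (Nat.cast_nonneg _)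
          ((Nat.cast_nonneg _).trans (card_reps_le hAB v))
    _ = (36 * A * B) ^ 2 * ∑ v ∈ V, divWeight A v.natAbs ^ 2 := (mul_sum _ _ _).symm
    _ ≤ (36 * A * B) ^ 2 * (2 * ∑ n ∈ range (2 * A * B + 1), divWeight A n ^ 2) := by
        gcongr
        rw [← sum_fiberwise_of_maps_to (g := Int.natAbs) (t := range (2 * A * B + 1))
          (fun v hv => by
            rw [hV, mem_Icc] at hv
            rw [mem_range]
            omega), mul_sum]
        refine sum_le_sum fun n _ => ?_
        rw [sum_congr rfl fun v hv => by rw [(mem_filter.1 hv).2], sum_const, nsmul_eq_mul]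
        refine mul_le_mul_of_nonneg_right ?_ (sq_nonneg _)
        have : #(V.filter fun v => v.natAbs = n) ≤ 2 :=
          (card_le_card (t := {(n : ℤ), -(n : ℤ)}) fun v hv => by
            rw [mem_filter] at hv
            rw [mem_insert, mem_singleton]
            omega).trans card_le_two
        exact_mod_cast this
    _ ≤ (36 * A * B) ^ 2 * (2 * ((1 + 2 * GoldbachSchnirelmann.meanConst) * (A * B))) := by
        gcongr
        exact sum_divWeight_sq_le hAB
    _ = _ := by rw [linearConst]; ring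

end FA.WaringHilbert
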