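import Fermat.Agent.WaringHilbert.LinearEquation
import Fermat.Agent.WaringHilbert.ExpSum

/-!
# Linnik's lemma

A polynomial of degree `d` whose coefficient of `x ^ j` is `O (P ^ (d - j))` takes a given value
as a sum of `s` values on `[-P, P]` at most `O (P ^ (s - d))` times.
-/

set_option autoImplicit false

noncomputable section

namespace FA.WaringHilbert

open Finset

/-- The value of the polynomial with coefficients `a 0, …, a d`. -/
def polyVal (d : ℕ) (a : ℕ → ℤ) (x : ℤ) : ℤ := ∑ j ∈ range (d + 1), a j * x ^ j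

/-- The coefficients of `(f (y + h) - f y) / h`. -/
def diffCoeff (d : ℕ) (a : ℕ → ℤ) (h : ℤ) (i : ℕ) : ℤ :=
  ∑ j ∈ range (d + 2), if i < j then a j * (j.choose i : ℤ) * h ^ (j - 1 - i) else 0

/-- The statement of Linnik's lemma for the degree `d` and `s` variables. -/
def LinnikBound (d s : ℕ) : Prop :=
  ∀ c : ℕ, ∃ K : ℝ, 0 ≤ K ∧ ∀ P : ℕ, 0 < P → ∀ a : ℕ → ℤ, a d ≠ 0 →
    (∀ j ≤ d, (a j).natAbs ≤ c * P ^ (d - j)) → ∀ m : ℤ,
      (#((Fintype.piFinset fun _ : Fin s => Icc (-(P : ℤ)) P).filter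
        fun x => ∑ i, polyVal d a (x i) = m) : ℝ) ≤ K * (P : ℝ) ^ (s - d)

theorem linnik_one : LinnikBound 1 2 := by
  intro c
  refine ⟨3, by norm_num, fun P hP a ha _ m => ?_⟩
  have h : #((Fintype.piFinset fun _ : Fin 2 => Icc (-(P : ℤ)) P).filter
      fun x => ∑ i, polyVal 1 a (x i) = m) ≤ 3 * P := by
    refine (card_le_card_of_injOn (fun x => x 0) (t := Icc (-(P : ℤ)) P) (fun x hx => ?_)
      fun x hx y hy hxy => ?_).trans ?_
    · exact mem_coe.2 (Fintype.mem_piFinset.1 (mem_filter.1 (mem_coe.1 hx)).1 0)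
    · simp only [mem_coe, mem_filter, Fin.sum_univ_two, polyVal, sum_range_succ, sum_range_zero,
        pow_zero, pow_one] at hx hy
      have e := hx.2.trans hy.2.symm
      dsimp only at hxy
      rw [hxy] at e
      funext i
      fin_cases i
      · exact hxy
      · show x 1 = y 1
        exact mul_left_cancel₀ ha (by linarith)
    · rw [Int.card_Icc]
      omega
  rw [pow_one]
  exact_mod_cast h

theorem polyVal_sub (d : ℕ) (a : ℕ → ℤ) (h y : ℤ) :
    polyVal (d + 1) a (y + h) - polyVal (d + 1) a y = h * polyVal d (diffCoeff d a h) y := by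
  unfold polyVal diffCoeff
  rw [← sum_sub_distrib, mul_sum]
  simp_rw [sum_mul, mul_sum]
  rw [sum_comm]
  refine sum_congr rfl fun j hj => ?_
  rw [mem_range] at hj
  simp_rw [ite_mul, zero_mul, mul_ite, mul_zero]
  rw [← sum_filter, show (range (d + 1)).filter (· < j) = range j by ext i; simp; omega,
    add_pow, sum_range_succ]
  simp only [Nat.sub_self, pow_zero, mul_one, Nat.choose_self, Nat.cast_one]
  rw [← mul_sub, add_sub_cancel_right, mul_sum]
  refine sum_congr rfl fun i hi => ?_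
  rw [mem_range] at hi
  rw [show j - i = j - 1 - i + 1 by omega, pow_succ]
  ring

theorem diffCoeff_top (d : ℕ) (a : ℕ → ℤ) (h : ℤ) :
    diffCoeff d a h d = a (d + 1) * (d + 1) := by
  unfold diffCoeff
  rw [sum_eq_single (d + 1) (fun j hj hne => if_neg (by rw [mem_range] at hj; omega))
    (fun h => absurd (mem_range.2 (by omega)) h), if_pos (by omega), Nat.choose_succ_self_right,
    show d + 1 - 1 - d = 0 by omega, pow_zero, mul_one]
  push_cast
  rfl

theorem natAbs_diffCoeff_le {d c P : ℕ} {a : ℕ → ℤ} {h : ℤ} (hh : h.natAbs ≤ 2 * P)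
    (ha : ∀ j ≤ d + 1, (a j).natAbs ≤ c * P ^ (d + 1 - j)) (i : ℕ) (hi : i ≤ d) :
    (diffCoeff d a h i).natAbs ≤ ((d + 2) * 4 ^ (d + 1) * c) * P ^ (d - i) := by
  unfold diffCoeff
  refine (Int.natAbs_sum_le _ _).trans ((sum_le_card_nsmul _ _ (4 ^ (d + 1) * c * P ^ (d - i))
    fun j hj => ?_).trans (le_of_eq ?_))
  · rw [mem_range] at hj
    split_ifs with hij
    · rw [Int.natAbs_mul, Int.natAbs_mul, Int.natAbs_natCast, Int.natAbs_pow]
      calc (a j).natAbs * j.choose i * h.natAbs ^ (j - 1 - i)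
          ≤ c * P ^ (d + 1 - j) * 2 ^ (d + 1) * (2 ^ (d + 1) * P ^ (j - 1 - i)) := by
            refine Nat.mul_le_mul (Nat.mul_le_mul (ha j (by omega)) ?_) ?_
            · exact (Nat.choose_le_two_pow j i).trans (Nat.pow_le_pow_right two_pos (by omega))
            · refine (Nat.pow_le_pow_left hh _).trans ?_
              rw [mul_pow]
              exact Nat.mul_le_mul_right _ (Nat.pow_le_pow_right two_pos (by omega))
        _ = 4 ^ (d + 1) * c * (P ^ (d + 1 - j) * P ^ (j - 1 - i)) := by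
            rw [show (4 : ℕ) = 2 * 2 from rfl, mul_pow]; ring
        _ = _ := by rw [← pow_add, show d + 1 - j + (j - 1 - i) = d - i by omega]
    · simp
  · rw [card_range, smul_eq_mul]
    ring

theorem natAbs_polyVal_le {d c P : ℕ} {a : ℕ → ℤ} {x : ℤ} (hx : x.natAbs ≤ P)
    (ha : ∀ j ≤ d, (a j).natAbs ≤ c * P ^ (d - j)) :
    (polyVal d a x).natAbs ≤ (d + 1) * c * P ^ d := by
  refine (Int.natAbs_sum_le _ _).trans ((sum_le_card_nsmul _ _ (c * P ^ d) fun j hj => ?_).trans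
    (le_of_eq ?_))
  · rw [mem_range] at hj
    rw [Int.natAbs_mul, Int.natAbs_pow]
    refine (Nat.mul_le_mul (ha j (by omega)) (Nat.pow_le_pow_left hx _)).trans (le_of_eq ?_)
    rw [mul_assoc, ← pow_add, show d - j + j = d by omega]
  · rw [card_range, smul_eq_mul]
    ring

/-- The variable ranges after differencing by `h`. -/
def shiftRange (P : ℕ) (h : ℤ) : Finset ℤ :=
  (Icc (-(P : ℤ)) P).filter fun y => y + h ∈ Icc (-(P : ℤ)) P

/-- The second moment of one differenced sum. -/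
def momentSet (P u : ℕ) (h : ℤ) : Finset ((Fin u → ℤ) × (Fin u → ℤ)) :=
  (Fintype.piFinset fun _ : Fin u => shiftRange P h) ×ˢ
    (Fintype.piFinset fun _ : Fin u => shiftRange P h)

/-- The values in `momentSet`. -/
def momentVal (d u : ℕ) (a : ℕ → ℤ) (h : ℤ) (p : (Fin u → ℤ) × (Fin u → ℤ)) : ℤ :=
  ∑ i, polyVal d (diffCoeff d a h) (p.1 i) - ∑ i, polyVal d (diffCoeff d a h) (p.2 i)

variable (q : ℕ) [NeZero q]

/-- The differenced sum. -/
def diffSum (d P : ℕ) (a : ℕ → ℤ) (h : ℤ) (α : ZMod q) : ℂ :=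
  expSum q (shiftRange P h) (fun y => h * polyVal d (diffCoeff d a h) y) α

theorem norm_expSum_sq_le {d P : ℕ} (hP : 0 < P) (a : ℕ → ℤ) (α : ZMod q) :
    ‖expSum q (Icc (-(P : ℤ)) P) (polyVal (d + 1) a) α‖ ^ 2 ≤
      3 * P + ∑ h ∈ punctured (2 * P), ‖diffSum q d P a h α‖ := by
  obtain ⟨I, hI⟩ : ∃ I, I = Icc (-(P : ℤ)) P := ⟨_, rfl⟩
  rw [← hI]
  have h1 : expSum q (I ×ˢ I) (fun p => polyVal (d + 1) a p.1 - polyVal (d + 1) a p.2) α =
      ∑ h ∈ Icc (-((2 * P : ℕ) : ℤ)) (2 * P : ℕ), diffSum q d P a h α := by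
    unfold diffSum
    rw [← expSum_sigma q _ (shiftRange P) (fun z => z.1 * polyVal d (diffCoeff d a z.1) z.2)]
    refine sum_nbij' (fun p => (⟨p.1 - p.2, p.2⟩ : Σ _ : ℤ, ℤ)) (fun z => (z.2 + z.1, z.2))
      ?_ ?_ ?_ ?_ ?_
    · intro p hp
      simp only [hI, mem_product, mem_Icc] at hp
      simp only [mem_sigma, shiftRange, mem_filter, mem_Icc]
      omega
    · intro z hz
      simp only [mem_sigma, shiftRange, mem_filter, mem_Icc] at hz
      simp only [hI, mem_product, mem_Icc]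
      omega
    · intro p _
      simp
    · intro z _
      simp
    · intro p _
      dsimp only
      rw [← polyVal_sub, add_sub_cancel]
  have h2 : ‖expSum q I (polyVal (d + 1) a) α‖ ^ 2 =
      ‖expSum q (I ×ˢ I) (fun p => polyVal (d + 1) a p.1 - polyVal (d + 1) a p.2) α‖ := by
    rw [← expSum_mul_conj, Complex.norm_real, Real.norm_eq_abs, abs_of_nonneg (by positivity)]
  rw [h2, h1, ← add_sum_erase _ _ (show (0 : ℤ) ∈ Icc (-((2 * P : ℕ) : ℤ)) (2 * P : ℕ) by simp)]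
  refine (norm_add_le _ _).trans (add_le_add ?_ (norm_sum_le _ _))
  refine (norm_expSum_le q _ _ α).trans ?_
  refine le_trans (Nat.cast_le.2 (card_filter_le _ _)) ?_
  rw [Int.card_Icc]
  calc (((P : ℤ) + 1 - -(P : ℤ)).toNat : ℝ) ≤ ((3 * P : ℕ) : ℝ) := Nat.cast_le.2 (by omega)
    _ = _ := by push_cast; rfl

theorem sum_norm_pow_eq {d P u : ℕ} (a : ℕ → ℤ) (α : ZMod q) :
    ((∑ h ∈ punctured (2 * P), ‖diffSum q d P a h α‖ ^ (2 * u) : ℝ) : ℂ) =
      expSum q ((punctured (2 * P)).sigma (momentSet P u))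
        (fun z => z.1 * momentVal d u a z.1 z.2) α := by
  rw [expSum_sigma, Complex.ofReal_sum]
  refine sum_congr rfl fun h _ => ?_
  rw [mul_comm 2 u, pow_mul, ← norm_pow, diffSum, expSum_pow, expSum_mul_conj]
  refine sum_congr rfl fun p _ => ?_
  simp only [momentVal, mul_sub, mul_sum]

theorem pow_add_le {x y : ℝ} (hx : 0 ≤ x) (hy : 0 ≤ y) (n : ℕ) :
    (x + y) ^ n ≤ 2 ^ n * (x ^ n + y ^ n) := by
  calc (x + y) ^ n ≤ (2 * max x y) ^ n :=
        pow_le_pow_left₀ (add_nonneg hx hy) (by linarith [le_max_left x y, le_max_right x y]) n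
    _ = 2 ^ n * max x y ^ n := mul_pow _ _ _
    _ ≤ _ := by
        refine mul_le_mul_of_nonneg_left ?_ (by positivity)
        rcases max_choice x y with h | h <;> rw [h] <;> linarith [pow_nonneg hx n, pow_nonneg hy n]

/-- One differencing step, for one `α`. -/
theorem norm_expSum_pow_le {d P u : ℕ} (hP : 0 < P) (hu : 0 < u) (a : ℕ → ℤ) (α : ZMod q) :
    ‖expSum q (Icc (-(P : ℤ)) P) (polyVal (d + 1) a) α‖ ^ (16 * u) ≤
      2 ^ (8 * u) * ((3 * P : ℝ) ^ (8 * u) + (4 * P : ℝ) ^ ((2 * u - 1) * 4) *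
        (∑ h ∈ punctured (2 * P), ‖diffSum q d P a h α‖ ^ (2 * u)) ^ 4) := by
  obtain ⟨S, hS⟩ : ∃ S, S = ∑ h ∈ punctured (2 * P), ‖diffSum q d P a h α‖ := ⟨_, rfl⟩
  have hS0 : 0 ≤ S := hS ▸ sum_nonneg fun h _ => norm_nonneg _
  rw [show 16 * u = 2 * (8 * u) by ring, pow_mul]
  refine (pow_le_pow_left₀ (sq_nonneg _) (hS ▸ norm_expSum_sq_le q hP a α) _).trans
    ((pow_add_le (by positivity) hS0 _).trans ?_)
  gcongr
  rw [show 8 * u = 2 * u * 4 by ring, pow_mul, pow_mul ((4 : ℝ) * P), ← mul_pow]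
  refine pow_le_pow_left₀ (by positivity) ?_ 4
  have hcard : (#(punctured (2 * P)) : ℝ) ≤ 4 * P := by
    rw [punctured, card_erase_of_mem (by simp), Int.card_Icc]
    calc _ ≤ ((4 * P : ℕ) : ℝ) := Nat.cast_le.2 (by omega)
      _ = _ := by push_cast; rfl
  obtain ⟨k, hk⟩ : ∃ k, 2 * u = k + 1 := ⟨2 * u - 1, by omega⟩
  rw [hk, Nat.add_sub_cancel, hS]
  refine (pow_sum_le_card_mul_sum_pow (fun h _ => norm_nonneg _) k).trans ?_
  gcongr

/-- The moments are bounded by the previous degree. -/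
theorem card_moment_le {d u P c : ℕ} {K : ℝ} (hdu : d ≤ u) (hP : 0 < P) (hK0 : 0 ≤ K)
    (hK : ∀ a : ℕ → ℤ, a d ≠ 0 →
      (∀ j ≤ d, (a j).natAbs ≤ ((d + 2) * 4 ^ (d + 1) * c) * P ^ (d - j)) → ∀ m : ℤ,
        (#((Fintype.piFinset fun _ : Fin u => Icc (-(P : ℤ)) P).filter
          fun x => ∑ i, polyVal d a (x i) = m) : ℝ) ≤ K * (P : ℝ) ^ (u - d))
    {a : ℕ → ℤ} (ha : a (d + 1) ≠ 0)
    (hac : ∀ j ≤ d + 1, (a j).natAbs ≤ c * P ^ (d + 1 - j)) {h : ℤ} (hh : h.natAbs ≤ 2 * P)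
    (m : ℤ) :
    (#((momentSet P u h).filter fun p => momentVal d u a h p = m) : ℝ) ≤
      3 ^ u * K * (P : ℝ) ^ (2 * u - d) := by
  obtain ⟨b, hb⟩ : ∃ b, b = diffCoeff d a h := ⟨_, rfl⟩
  have hbd : b d ≠ 0 := by
    rw [hb, diffCoeff_top]
    exact mul_ne_zero ha (by positivity)
  have hsub : shiftRange P h ⊆ Icc (-(P : ℤ)) P := filter_subset _ _
  unfold momentSet
  rw [card_eq_sum_card_fiberwise (f := Prod.snd)
    (t := Fintype.piFinset fun _ : Fin u => shiftRange P h)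
    (fun p hp => mem_coe.2 (mem_product.1 (mem_filter.1 (mem_coe.1 hp)).1).2)]
  push_cast
  refine (sum_le_sum (g := fun _ => K * (P : ℝ) ^ (u - d)) fun y _ => ?_).trans ?_
  · refine le_trans (Nat.cast_le.2 (card_le_card_of_injOn Prod.fst
      (t := (Fintype.piFinset fun _ : Fin u => Icc (-(P : ℤ)) P).filter
        fun x => ∑ i, polyVal d b (x i) = m + ∑ i, polyVal d b (y i)) (fun p hp => ?_)
      fun p hp r hr hpr => ?_))
      (hK b hbd (fun j hj => hb ▸ natAbs_diffCoeff_le hh hac j hj) _)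
    · simp only [mem_coe, mem_filter, mem_product, momentVal, ← hb] at hp ⊢
      obtain ⟨⟨⟨hp1, -⟩, he⟩, rfl⟩ := hp
      exact ⟨Fintype.mem_piFinset.2 fun i => hsub (Fintype.mem_piFinset.1 hp1 i), by linarith⟩
    · simp only [mem_coe, mem_filter] at hp hr
      exact Prod.ext hpr (hp.2.trans hr.2.symm)
  · rw [sum_const, nsmul_eq_mul, Fintype.card_piFinset_const,
      show 2 * u - d = u + (u - d) by omega, pow_add]
    push_cast
    have : (#(shiftRange P h) : ℝ) ≤ 3 * P := by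
      refine (Nat.cast_le.2 (card_le_card hsub)).trans ?_
      rw [Int.card_Icc]
      calc _ ≤ ((3 * P : ℕ) : ℝ) := Nat.cast_le.2 (by omega)
        _ = _ := by push_cast; rfl
    refine (mul_le_mul_of_nonneg_right (pow_le_pow_left₀ (Nat.cast_nonneg _) this u)
      (by positivity)).trans (le_of_eq ?_)
    rw [mul_pow]
    ring

/-- **The inductive step.** -/
theorem linnik_succ {d u : ℕ} (hd : 1 ≤ d) (hdu : d ≤ u) (hL : LinnikBound d u) :
    LinnikBound (d + 1) (16 * u) := by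
  intro c
  obtain ⟨K, hK0, hK⟩ := hL ((d + 2) * 4 ^ (d + 1) * c)
  obtain ⟨N, hN⟩ : ∃ N, N = max 2 (2 * u * ((d + 1) * ((d + 2) * 4 ^ (d + 1) * c))) := ⟨_, rfl⟩
  refine ⟨2 ^ (8 * u) * ((3 : ℝ) ^ (8 * u) + 4 ^ ((2 * u - 1) * 4) *
    ((3 ^ u * K) ^ 4 * (linearConst * (2 * N) ^ 3))),
    by have := linearConst_nonneg; positivity, fun P hP a ha hac m => ?_⟩
  obtain ⟨A, hA⟩ : ∃ A, A = 2 * P := ⟨_, rfl⟩
  obtain ⟨B, hB⟩ : ∃ B, B = N * P ^ d := ⟨_, rfl⟩
  have hAB : A ≤ B := by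
    rw [hA, hB]
    exact Nat.mul_le_mul (hN ▸ le_max_left _ _) (Nat.le_self_pow (by omega) P)
  obtain ⟨q, hq⟩ : ∃ q, q = 4 * (A * B) + 1 := ⟨_, rfl⟩
  have : NeZero q := ⟨by omega⟩
  obtain ⟨Z, hZ⟩ : ∃ Z, Z = (punctured (2 * P)).sigma (momentSet P u) := ⟨_, rfl⟩
  obtain ⟨w, hw⟩ : ∃ w : (Σ _ : ℤ, (Fin u → ℤ) × (Fin u → ℤ)) → ℤ × ℤ,
      w = fun z => (z.1, momentVal d u a z.1 z.2) := ⟨_, rfl⟩
  have hwbox : ∀ z ∈ Z, w z ∈ box A B := by
    intro z hz
    rw [hZ, mem_sigma] at hz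
    have hh := (mem_punctured.1 hz.1).2
    simp only [hw, box, mem_product, hA]
    refine ⟨hz.1, ?_⟩
    have hval : ∀ y : Fin u → ℤ, y ∈ (Fintype.piFinset fun _ : Fin u => shiftRange P z.1) →
        (∑ i, polyVal d (diffCoeff d a z.1) (y i)).natAbs ≤
          u * ((d + 1) * ((d + 2) * 4 ^ (d + 1) * c) * P ^ d) := by
      intro y hy
      refine (Int.natAbs_sum_le _ _).trans ((sum_le_card_nsmul _ _
        ((d + 1) * ((d + 2) * 4 ^ (d + 1) * c) * P ^ d) fun i _ => ?_).trans (le_of_eq (by simp)))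
      have hy' := mem_Icc.1 (mem_filter.1 (Fintype.mem_piFinset.1 hy i)).1
      exact natAbs_polyVal_le (by omega) fun j hj => natAbs_diffCoeff_le hh hac j hj
    obtain ⟨M, hM⟩ : ∃ M, M = (d + 1) * ((d + 2) * 4 ^ (d + 1) * c) := ⟨_, rfl⟩
    rw [← hM] at hval hN
    have hBM : 2 * (u * (M * P ^ d)) ≤ B := by
      rw [hB]
      calc 2 * (u * (M * P ^ d)) = 2 * u * M * P ^ d := by ring
        _ ≤ _ := Nat.mul_le_mul_right _ (hN ▸ le_max_right _ _)
    have h1 := hval _ (mem_product.1 hz.2).1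
    have h2 := hval _ (mem_product.1 hz.2).2
    have h3 := Int.natAbs_sub_le (∑ i, polyVal d (diffCoeff d a z.1) (z.2.1 i))
      (∑ i, polyVal d (diffCoeff d a z.1) (z.2.2 i))
    rw [mem_Icc, momentVal]
    omega
  have hfour : ∀ α : ZMod q,
      (∑ h ∈ punctured (2 * P), ‖diffSum q d P a h α‖ ^ (2 * u) : ℝ) ^ 4 =
        (expSum q (Fintype.piFinset fun _ : Fin 4 => Z)
          (fun z => ∑ i, (w (z i)).1 * (w (z i)).2) α).re := by
    intro α
    rw [← Complex.ofReal_re ((∑ h ∈ punctured (2 * P), ‖diffSum q d P a h α‖ ^ (2 * u)) ^ 4),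
      Complex.ofReal_pow, sum_norm_pow_eq, expSum_pow, hZ, hw]
  have hsol : (#((Fintype.piFinset fun _ : Fin 4 => Z).filter
      fun z => ((∑ i, (w (z i)).1 * (w (z i)).2 : ℤ) : ZMod q) = 0) : ℝ) ≤
      (3 ^ u * K * (P : ℝ) ^ (2 * u - d)) ^ 4 * (linearConst * ((A : ℝ) * B) ^ 3) := by
    rw [card_eq_sum_card_fiberwise (f := fun z i => w (z i))
      (t := (Fintype.piFinset fun _ : Fin 4 => box A B).filter
        fun p => ∑ i, (p i).1 * (p i).2 = 0) fun z hz => ?_]
    · push_cast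
      refine (sum_le_sum (g := fun _ => (3 ^ u * K * (P : ℝ) ^ (2 * u - d)) ^ 4)
        fun p hp => ?_).trans ?_
      · refine le_trans (Nat.cast_le.2 (card_le_card (t := Fintype.piFinset
          fun i => Z.filter fun z => w z = p i) fun z hz => ?_)) ?_
        · rw [mem_filter, mem_filter, Fintype.mem_piFinset] at hz
          rw [Fintype.mem_piFinset]
          exact fun i => mem_filter.2 ⟨hz.1.1 i, congrFun hz.2 i⟩
        · rw [Fintype.card_piFinset, Nat.cast_prod]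
          refine (prod_le_prod (fun i _ => Nat.cast_nonneg _) fun i _ => ?_).trans
            (le_of_eq (prod_const (3 ^ u * K * (P : ℝ) ^ (2 * u - d))
              (s := (univ : Finset (Fin 4)))))
          have hbox := Fintype.mem_piFinset.1 (mem_filter.1 hp).1 i
          rw [box, mem_product, mem_punctured, hA] at hbox
          refine le_trans (Nat.cast_le.2 (card_le_card_of_injOn (fun z => z.2)
            (t := (momentSet P u (p i).1).filter fun r => momentVal d u a (p i).1 r = (p i).2)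
            (fun z hz => ?_) fun z hz r hr hzr => ?_))
            (card_moment_le hdu hP hK0 (hK P hP) ha hac hbox.1.2 _)
          · simp only [mem_coe, mem_filter, hZ, mem_sigma, hw] at hz ⊢
            rw [← hz.2]
            exact ⟨hz.1.2, rfl⟩
          · simp only [mem_coe, mem_filter, hw] at hz hr
            exact Sigma.ext ((congrArg Prod.fst hz.2).trans (congrArg Prod.fst hr.2).symm)
              (heq_of_eq hzr)
      · rw [sum_const, nsmul_eq_mul, mul_comm]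
        gcongr
        exact card_linear_le hAB
    · simp only [mem_coe, mem_filter, Fintype.mem_piFinset] at hz ⊢
      refine ⟨fun i => hwbox _ (hz.1 i), Int.eq_zero_of_dvd_of_natAbs_lt_natAbs
        ((ZMod.intCast_zmod_eq_zero_iff_dvd _ q).1 hz.2) ?_⟩
      refine lt_of_le_of_lt ((Int.natAbs_sum_le _ _).trans
        (sum_le_card_nsmul _ _ (A * B) fun i _ => ?_)) ?_
      · have := hwbox _ (hz.1 i)
        simp only [box, mem_product, mem_punctured, mem_Icc] at this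
        rw [Int.natAbs_mul]
        exact Nat.mul_le_mul this.1.2 (by omega)
      · rw [card_univ, Fintype.card_fin, smul_eq_mul, Int.natAbs_natCast]
        omega
  have hq0 : (0 : ℝ) < q := Nat.cast_pos.2 (by omega)
  refine le_of_mul_le_mul_left ((card_filter_eq_le q _ _ m).trans ?_) hq0
  refine (norm_sum_le _ _).trans ?_
  calc ∑ α : ZMod q, ‖ZMod.stdAddChar (-(α * (m : ZMod q))) *
        expSum q (Fintype.piFinset fun _ : Fin (16 * u) => Icc (-(P : ℤ)) P)
          (fun x => ∑ i, polyVal (d + 1) a (x i)) α‖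
      ≤ ∑ α : ZMod q, 2 ^ (8 * u) * ((3 * P : ℝ) ^ (8 * u) + (4 * P : ℝ) ^ ((2 * u - 1) * 4) *
          (∑ h ∈ punctured (2 * P), ‖diffSum q d P a h α‖ ^ (2 * u)) ^ 4) := by
        refine sum_le_sum fun α _ => ?_
        rw [norm_mul, norm_stdAddChar, one_mul, ← expSum_pow, norm_pow]
        exact norm_expSum_pow_le q hP (by omega) a α
    _ = 2 ^ (8 * u) * (q * (3 * P : ℝ) ^ (8 * u) + (4 * P : ℝ) ^ ((2 * u - 1) * 4) *
          ∑ α : ZMod q, (∑ h ∈ punctured (2 * P), ‖diffSum q d P a h α‖ ^ (2 * u)) ^ 4) := by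
        rw [← mul_sum, sum_add_distrib, ← mul_sum, sum_const, card_univ, ZMod.card, nsmul_eq_mul]
    _ ≤ 2 ^ (8 * u) * (q * (3 * P : ℝ) ^ (8 * u) + (4 * P : ℝ) ^ ((2 * u - 1) * 4) *
          (q * ((3 ^ u * K * (P : ℝ) ^ (2 * u - d)) ^ 4 *
            (linearConst * ((A : ℝ) * B) ^ 3)))) := by
        gcongr
        simp_rw [hfour]
        rw [← Complex.re_sum, sum_expSum]
        simp only [Complex.mul_re, Complex.natCast_re, Complex.natCast_im, mul_zero, sub_zero]
        exact mul_le_mul_of_nonneg_left hsol hq0.le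
    _ ≤ _ := by
        have hP1 : (1 : ℝ) ≤ P := Nat.one_le_cast.2 hP
        have e1 : (P : ℝ) ^ (8 * u) ≤ (P : ℝ) ^ (16 * u - (d + 1)) :=
          pow_le_pow_right₀ hP1 (by omega)
        have e2 : (P : ℝ) ^ ((2 * u - 1) * 4) * ((P : ℝ) ^ (2 * u - d)) ^ 4 *
            ((P : ℝ) * (P : ℝ) ^ d) ^ 3 = (P : ℝ) ^ (16 * u - (d + 1)) := by
          rw [← pow_succ', ← pow_mul, ← pow_mul, ← pow_add, ← pow_add]
          congr 1
          omega
        rw [hA, hB]
        push_cast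
        have hLC := linearConst_nonneg
        calc _ = (q : ℝ) * (2 ^ (8 * u) * ((3 : ℝ) ^ (8 * u) * (P : ℝ) ^ (8 * u) +
              4 ^ ((2 * u - 1) * 4) * ((3 ^ u * K) ^ 4 * (linearConst * (2 * N) ^ 3)) *
              ((P : ℝ) ^ ((2 * u - 1) * 4) * ((P : ℝ) ^ (2 * u - d)) ^ 4 *
                ((P : ℝ) * (P : ℝ) ^ d) ^ 3))) := by
              simp only [mul_pow]
              ring
          _ ≤ _ := by
              rw [e2, mul_assoc ((2 : ℝ) ^ (8 * u)), add_mul]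
              gcongr

/-- **Linnik's lemma.** -/
theorem linnik : ∀ d : ℕ, 1 ≤ d → ∃ s, d ≤ s ∧ LinnikBound d s := by
  intro d hd
  induction d, hd using Nat.le_induction with
  | base => exact ⟨2, by norm_num, linnik_one⟩
  | succ n hn ih =>
    obtain ⟨u, hu, hL⟩ := ih
    exact ⟨16 * u, by omega, linnik_succ hn hu hL⟩

end FA.WaringHilbert
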