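import Fermat.Agent.WaringHilbert.Linnik

/-!
# Waring's problem

By Linnik's lemma the sums of `s` `k`-th powers have positive Schnirelmann density, hence form
a basis of finite order.
-/

set_option autoImplicit false

noncomputable section

namespace FA.WaringHilbert

open Finset

/-- The `k`-th powers. -/
def powerSet (k : ℕ) : Set ℕ := Set.range fun x : ℕ => x ^ k

theorem sum_mem_sumsOf {k s : ℕ} (x : Fin s → ℕ) :
    ∑ i, x i ^ k ∈ GoldbachSchnirelmann.sumsOf (powerSet k) s := by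
  refine ⟨List.ofFn fun i => x i ^ k, by simp, fun y hy => ?_, List.sum_ofFn⟩
  obtain ⟨i, rfl⟩ := List.mem_ofFn.1 hy
  exact ⟨x i, rfl⟩

theorem sumsOf_sumsOf (A : Set ℕ) (s : ℕ) : ∀ (g : ℕ) (l : List ℕ), l.length ≤ g →
    (∀ x ∈ l, x ∈ GoldbachSchnirelmann.sumsOf A s) →
      l.sum ∈ GoldbachSchnirelmann.sumsOf A (g * s)
  | _, [], _, _ => GoldbachSchnirelmann.zero_mem_sumsOf A _
  | 0, x :: l, h, _ => by simp at h
  | g + 1, x :: l, h, hA => by
    refine GoldbachSchnirelmann.sumsOf_add_subset A (g * s) s |>.trans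
      (by rw [add_mul, one_mul]) ?_
    rw [List.sum_cons, add_comm x]
    exact Set.add_mem_add (sumsOf_sumsOf A s g l (by simpa using h)
      fun y hy => hA y (List.mem_cons_of_mem x hy)) (hA x List.mem_cons_self)

theorem density_powerSums_pos {k : ℕ} (hk : 0 < k) :
    ∃ s, 0 < GoldbachSchnirelmann.density (GoldbachSchnirelmann.sumsOf (powerSet k) s) := by
  classical
  obtain ⟨s, hks, hL⟩ := linnik k hk
  obtain ⟨K, hK0, hK⟩ := hL 1
  refine ⟨s, ?_⟩
  obtain ⟨D, hD⟩ : ∃ D, D = GoldbachSchnirelmann.sumsOf (powerSet k) s := ⟨_, rfl⟩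
  rw [← hD]
  obtain ⟨a, ha⟩ : ∃ a : ℕ → ℤ, a = fun j => if j = k then 1 else 0 := ⟨_, rfl⟩
  have hpoly : ∀ x : ℤ, polyVal k a x = x ^ k := fun x => by
    unfold polyVal
    rw [sum_eq_single k (fun j _ hj => by simp [ha, hj]) (fun h => by simp at h)]
    simp [ha]
  have hcount : ∀ P : ℕ, 0 < P → ∀ N : ℕ, s * P ^ k ≤ N →
      (P : ℝ) ^ k ≤ (K + 1) * GoldbachSchnirelmann.countIn D N := by
    intro P hP N hN
    obtain ⟨T, hT⟩ : ∃ T, T = (Fintype.piFinset fun _ : Fin s => Icc (0 : ℕ) P).erase 0 := ⟨_, rfl⟩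
    have hTc : (P : ℝ) ^ s ≤ #T := by
      have h0 : (0 : Fin s → ℕ) ∈ Fintype.piFinset fun _ : Fin s => Icc (0 : ℕ) P := by simp
      rw [hT, card_erase_of_mem h0, Fintype.card_piFinset_const, Nat.card_Icc, Nat.sub_zero,
        ← Nat.cast_pow, Nat.cast_le]
      exact Nat.le_sub_one_of_lt
        (Nat.pow_lt_pow_left (Nat.lt_succ_self P) (show s ≠ 0 by omega))
    have hmaps : ∀ x ∈ T, ∑ i, x i ^ k ∈ (Ioc 0 N).filter (· ∈ D) := by
      intro x hx
      rw [hT, mem_erase, Fintype.mem_piFinset] at hx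
      refine mem_filter.2 ⟨mem_Ioc.2 ⟨?_, ?_⟩, hD ▸ sum_mem_sumsOf x⟩
      · obtain ⟨i, hi⟩ := Function.ne_iff.1 hx.1
        exact lt_of_lt_of_le (pow_pos (Nat.pos_of_ne_zero hi) k)
          (single_le_sum (f := fun i => x i ^ k) (fun _ _ => Nat.zero_le _) (mem_univ i))
      · refine le_trans (sum_le_card_nsmul _ _ (P ^ k) fun i _ =>
          Nat.pow_le_pow_left (mem_Icc.1 (hx.2 i)).2 k) ?_
        simpa using hN
    have hfib : ∀ n ∈ (Ioc 0 N).filter (· ∈ D),
        (#(T.filter fun x => ∑ i, x i ^ k = n) : ℝ) ≤ (K + 1) * (P : ℝ) ^ (s - k) := by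
      intro n _
      refine le_trans (le_trans (Nat.cast_le.2 (card_le_card_of_injOn
        (fun x i => (x i : ℤ)) (fun x hx => ?_) fun x _ y _ hxy => ?_))
        (hK P hP a (by simp [ha]) (fun j _ => ?_) n)) ?_
      · simp only [mem_coe, mem_filter, hT, mem_erase, Fintype.mem_piFinset, mem_Icc] at hx ⊢
        refine ⟨fun i => ⟨by omega, by exact_mod_cast (hx.1.2 i).2⟩, ?_⟩
        simp only [hpoly]
        exact_mod_cast hx.2
      · funext i
        simpa using congrFun hxy i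
      · rcases eq_or_ne j k with rfl | hj
        · simp [ha]
        · simp [ha, hj]
      · exact mul_le_mul_of_nonneg_right (by linarith) (by positivity)
    have h2 : (P : ℝ) ^ s ≤
        GoldbachSchnirelmann.countIn D N * ((K + 1) * (P : ℝ) ^ (s - k)) := by
      refine hTc.trans ?_
      rw [card_eq_sum_card_fiberwise (f := fun x => ∑ i, x i ^ k) (t := (Ioc 0 N).filter (· ∈ D))
        fun x hx => mem_coe.2 (hmaps x (mem_coe.1 hx))]
      push_cast
      refine (sum_le_sum hfib).trans (le_of_eq ?_)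
      rw [sum_const, nsmul_eq_mul]
      rfl
    refine le_of_mul_le_mul_right ?_ (show (0 : ℝ) < (P : ℝ) ^ (s - k) by positivity)
    rw [← pow_add, show k + (s - k) = s by omega]
    linarith [h2]
  obtain ⟨c, hc⟩ : ∃ c : ℝ, c = 1 / ((s : ℝ) * 2 ^ k * (K + 1)) := ⟨_, rfl⟩
  have hs : (0 : ℝ) < s := Nat.cast_pos.2 (by omega)
  refine lt_of_lt_of_le (show 0 < c by rw [hc]; positivity) ?_
  show c ≤ schnirelmannDensity D
  rw [le_schnirelmannDensity_iff]
  intro N hN
  rw [le_div_iff₀ (Nat.cast_pos.2 hN)]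
  show c * (N : ℝ) ≤ GoldbachSchnirelmann.countIn D N
  obtain ⟨P, hP⟩ : ∃ P, P = Nat.findGreatest (fun P => s * P ^ k ≤ N) N := ⟨_, rfl⟩
  rw [hc, one_div, inv_mul_le_iff₀ (by positivity)]
  have h1D : 1 ≤ GoldbachSchnirelmann.countIn D N := by
    refine Nat.one_le_cast.2 (card_pos.2 ⟨1, mem_filter.2 ⟨mem_Ioc.2 ⟨one_pos, hN⟩, ?_⟩⟩)
    rw [hD]
    exact ⟨[1], by simp; omega, fun y hy => ⟨1, by simp_all⟩, by simp⟩
  rcases Nat.eq_zero_or_pos P with h0 | h0
  · have hNs : N < s := by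
      by_contra hc'
      exact absurd (Nat.le_findGreatest (P := fun P => s * P ^ k ≤ N) (m := 1) hN
        (by simpa using not_lt.1 hc')) (by rw [← hP, h0]; omega)
    calc (N : ℝ) ≤ (s : ℝ) * 1 * 1 * 1 := by simpa using hNs.le
      _ ≤ (s : ℝ) * 2 ^ k * (K + 1) * GoldbachSchnirelmann.countIn D N := by
        gcongr
        · exact one_le_pow₀ one_le_two
        · linarith
  · have hspec : s * P ^ k ≤ N := by
      have := Nat.findGreatest_of_ne_zero hP.symm h0.ne'
      exact this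
    have hPN : P ≤ N :=
      (Nat.le_self_pow hk.ne' P).trans ((Nat.le_mul_of_pos_left _ (by omega)).trans hspec)
    have hmax : N < s * (P + 1) ^ k := by
      rcases eq_or_lt_of_le hPN with h | h
      · calc N = P := h.symm
          _ < P + 1 := Nat.lt_succ_self P
          _ ≤ (P + 1) ^ k := Nat.le_self_pow hk.ne' _
          _ ≤ _ := Nat.le_mul_of_pos_left _ (by omega)
      · exact not_le.1 (Nat.findGreatest_is_greatest (P := fun P => s * P ^ k ≤ N) (n := N)
          (k := P + 1) (hP ▸ Nat.lt_succ_self P) h)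
    calc (N : ℝ) ≤ (s : ℝ) * ((P : ℝ) + 1) ^ k := by exact_mod_cast hmax.le
      _ ≤ (s : ℝ) * (2 * (P : ℝ)) ^ k := by
        gcongr
        linarith [(Nat.one_le_cast (α := ℝ)).2 h0]
      _ ≤ (s : ℝ) * 2 ^ k * ((K + 1) * GoldbachSchnirelmann.countIn D N) := by
        rw [mul_pow, ← mul_assoc]
        exact mul_le_mul_of_nonneg_left (hcount P h0 N hspec) (by positivity)
      _ = _ := by ring

/-- **Waring's problem.** -/
theorem waring_exists (k : ℕ) (hk : 0 < k) :
    ∃ g : ℕ, ∀ n : ℕ, ∃ x : Fin g → ℕ, ∑ i, x i ^ k = n := by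
  obtain ⟨s, hs⟩ := density_powerSums_pos hk
  obtain ⟨g, hg⟩ := GoldbachSchnirelmann.exists_sumsOf_eq_univ _ hs
  refine ⟨g * s, fun n => ?_⟩
  obtain ⟨l, hl, hlA, rfl⟩ := (hg.symm ▸ Set.mem_univ n :
    n ∈ GoldbachSchnirelmann.sumsOf (GoldbachSchnirelmann.sumsOf (powerSet k) s) g)
  obtain ⟨L, hL, hLA, hsum⟩ := sumsOf_sumsOf (powerSet k) s g l hl hlA
  rw [← hsum]
  have : ∀ i : Fin (g * s), ∃ y : ℕ, y ^ k = L.getD i 0 := by
    intro i
    rcases lt_or_ge (i : ℕ) L.length with h | h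
    · rw [List.getD_eq_getElem _ _ h]
      exact hLA _ (List.getElem_mem h)
    · exact ⟨0, by rw [List.getD_eq_default _ _ h, zero_pow hk.ne']⟩
  choose y hy using this
  refine ⟨y, ?_⟩
  rw [sum_congr rfl fun i _ => hy i, Fin.sum_univ_eq_sum_range (fun i => L.getD i 0),
    ← sum_range_add_sum_Ico _ hL, sum_eq_zero (s := Ico _ _) fun i hi =>
      List.getD_eq_default _ _ (mem_Ico.1 hi).1, add_zero, ← Fin.sum_univ_getElem,
    ← Fin.sum_univ_eq_sum_range]
  refine sum_congr rfl fun i _ => ?_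
  exact List.getD_eq_getElem _ _ i.2

end FA.WaringHilbert
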